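import Fermat.Agent.AV.Basic.Stalk

/-!
# Local equations of a denominator divisor

On an integral scheme with factorial local rings at closed points, the common denominators of
finitely many rational functions are cut out by local equations, finitely many in all.
-/

set_option autoImplicit false

noncomputable section

open CategoryTheory AlgebraicGeometry TopologicalSpace

universe u

namespace FermatAgent.AV.Div

section Algebra

variable {R F : Type*} [CommRing R] [Field F] [Algebra R F]

/-- The element is a fraction whose denominator avoids the ideal. -/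
def InLoc (p : Ideal R) (x : F) : Prop := ∃ a u : R, u ∉ p ∧ x * algebraMap R F u = algebraMap R F a

theorem InLoc.zero {p : Ideal R} [p.IsPrime] : InLoc p (0 : F) :=
  ⟨0, 1, (Ideal.ne_top_iff_one p).mp ‹p.IsPrime›.ne_top, by simp⟩

theorem InLoc.add {p : Ideal R} [hp : p.IsPrime] {x y : F} (hx : InLoc p x) (hy : InLoc p y) :
    InLoc p (x + y) := by
  obtain ⟨a, u, hu, ha⟩ := hx
  obtain ⟨b, v, hv, hb⟩ := hy
  refine ⟨a * v + b * u, u * v, fun h => (hp.mem_or_mem h).elim hu hv, ?_⟩
  simp only [map_add, map_mul]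
  rw [← ha, ← hb]
  ring

theorem InLoc.smul {p : Ideal R} {x : F} (hx : InLoc p x) (r : R) :
    InLoc p (algebraMap R F r * x) := by
  obtain ⟨a, u, hu, ha⟩ := hx
  exact ⟨r * a, u, hu, by rw [map_mul, ← ha, mul_assoc]⟩

/-- `b` cuts out, at the prime, the common denominators of the family. -/
def IsDen {κ : Type*} (y : κ → F) (p : Ideal R) (b : F) : Prop :=
  InLoc p b ∧ (∀ i, InLoc p (y i * b)) ∧
    ∀ t : F, InLoc p t → (∀ i, InLoc p (y i * t)) → InLoc p (t / b)

variable [IsDomain R] [IsFractionRing R F]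

omit [IsDomain R] in
theorem inLoc_iff_range {p : Ideal R} [p.IsPrime] {O : Type*} [CommRing O] [Algebra R O]
    [Algebra O F] [IsScalarTower R O F] [IsLocalization.AtPrime O p] {x : F} :
    InLoc p x ↔ ∃ t : O, algebraMap O F t = x := by
  constructor
  · rintro ⟨a, u, hu, h⟩
    refine ⟨IsLocalization.mk' O a (⟨u, hu⟩ : p.primeCompl), ?_⟩
    have h0 : algebraMap R F u ≠ 0 := (map_ne_zero_iff _ (IsFractionRing.injective R F)).mpr
      fun h0 => hu (h0 ▸ p.zero_mem)
    refine mul_right_cancel₀ h0 ?_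
    rw [h, IsScalarTower.algebraMap_apply R O F u, ← map_mul,
      IsScalarTower.algebraMap_apply R O F a]
    exact congrArg _ (IsLocalization.mk'_spec O a (⟨u, hu⟩ : p.primeCompl))
  · rintro ⟨t, rfl⟩
    obtain ⟨⟨a, u⟩, h⟩ := IsLocalization.surj p.primeCompl t
    refine ⟨a, u.1, u.2, ?_⟩
    rw [IsScalarTower.algebraMap_apply R O F, ← map_mul, h, ← IsScalarTower.algebraMap_apply]

/-- **Common denominators at a factorial point spread out.** -/
theorem exists_isDen [IsNoetherianRing R] {κ : Type*} [Finite κ] (y : κ → F) (p : Ideal R)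
    [p.IsPrime] (O : Type*) [CommRing O] [IsDomain O] [UniqueFactorizationMonoid O] [Algebra R O]
    [Algebra O F] [IsScalarTower R O F] [IsLocalization.AtPrime O p] :
    ∃ w : R, w ∉ p ∧ ∃ b : F, b ≠ 0 ∧ ∀ q : Ideal R, q.IsPrime → w ∉ q → IsDen y q b := by
  classical
  have := Fintype.ofFinite κ
  have : IsFractionRing O F :=
    IsFractionRing.isFractionRing_of_isDomain_of_isLocalization p.primeCompl O F
  let := UniqueFactorizationMonoid.toGCDMonoid O
  -- the generator in the local ring
  have key : ∀ s : Finset κ, ∃ β : O, β ≠ 0 ∧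
      ∀ t : O, (∀ i ∈ s, ∃ a : O, algebraMap O F a = y i * algebraMap O F t) ↔ β ∣ t := by
    intro s
    induction s using Finset.induction_on with
    | empty => exact ⟨1, one_ne_zero, fun t => by simp⟩
    | insert i s hi ih =>
      obtain ⟨β, hβ, hβt⟩ := ih
      set n := IsFractionRing.num O (y i)
      set d : O := (IsFractionRing.den O (y i) : O)
      have hd : d ≠ 0 := nonZeroDivisors.coe_ne_zero _
      refine ⟨lcm d β, lcm_ne_zero_iff.mpr ⟨hd, hβ⟩, fun t => ?_⟩
      rw [lcm_dvd_iff, ← hβt t, Finset.forall_mem_insert]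
      refine and_congr_left fun _ => ?_
      have hy : algebraMap O F n / algebraMap O F d = y i := IsFractionRing.mk'_num_den' O (y i)
      have hd' : algebraMap O F d ≠ 0 :=
        (map_ne_zero_iff _ (IsFractionRing.injective O F)).mpr hd
      constructor
      · rintro ⟨a, ha⟩
        rw [← hy, eq_comm, div_mul_eq_mul_div, div_eq_iff hd', ← map_mul, ← map_mul] at ha
        refine IsRelPrime.dvd_of_dvd_mul_left (IsFractionRing.num_den_reduced O (y i)).symm
          ⟨a, ?_⟩
        rw [show n * t = a * d from IsFractionRing.injective O F ha, mul_comm]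
      · rintro ⟨c, rfl⟩
        exact ⟨n * c, by rw [← hy, map_mul, map_mul]; field_simp⟩
  obtain ⟨β, hβ, hβt⟩ := key Finset.univ
  simp only [Finset.mem_univ, forall_const] at hβt
  set b := algebraMap O F β
  have hb0 : b ≠ 0 := (map_ne_zero_iff _ (IsFractionRing.injective O F)).mpr hβ
  have hb1 : InLoc p b := (inLoc_iff_range (O := O)).mpr ⟨β, rfl⟩
  have hb2 : ∀ i, InLoc p (y i * b) := fun i =>
    (inLoc_iff_range (O := O)).mpr ((hβt β).mpr dvd_rfl i)
  -- the ideal of denominators
  let J : Ideal R :=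
    { carrier := {r | ∀ i, ∃ a : R, algebraMap R F a = y i * algebraMap R F r}
      zero_mem' := fun i => ⟨0, by simp⟩
      add_mem' := fun {r r'} h h' i => by
        obtain ⟨a, ha⟩ := h i
        obtain ⟨a', ha'⟩ := h' i
        exact ⟨a + a', by rw [map_add, map_add, ha, ha', mul_add]⟩
      smul_mem' := fun c r h i => by
        obtain ⟨a, ha⟩ := h i
        exact ⟨c * a, by rw [smul_eq_mul, map_mul, map_mul, ha]; ring⟩ }
  obtain ⟨G, hG⟩ := IsNoetherian.noetherian J
  have hGb : ∀ r : G, InLoc p (algebraMap R F r.1 / b) := fun r => by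
    have hr : r.1 ∈ J := hG ▸ Submodule.subset_span r.2
    obtain ⟨c, hc⟩ : β ∣ algebraMap R O r.1 := (hβt _).mp fun i => by
      obtain ⟨a, ha⟩ := hr i
      exact ⟨algebraMap R O a, by rw [← IsScalarTower.algebraMap_apply, ha,
        ← IsScalarTower.algebraMap_apply]⟩
    refine (inLoc_iff_range (O := O)).mpr ⟨c, ?_⟩
    rw [eq_div_iff hb0, IsScalarTower.algebraMap_apply R O F, hc, map_mul, mul_comm]
  obtain ⟨a₀, u₀, hu₀, h₀⟩ := hb1
  choose a₁ u₁ hu₁ h₁ using hb2
  choose a₂ u₂ hu₂ h₂ using hGb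
  refine ⟨u₀ * (∏ i, u₁ i) * ∏ r, u₂ r, ?_, b, hb0, fun q hq hw => ?_⟩
  · exact (p.primeCompl.mul_mem (p.primeCompl.mul_mem hu₀ (prod_mem fun i _ => hu₁ i))
      (prod_mem fun r _ => hu₂ r) : _ ∈ p.primeCompl)
  have hwa : u₀ * ∏ i, u₁ i ∉ q := fun h => hw (q.mul_mem_right _ h)
  have hw₀ : u₀ ∉ q := fun h => hwa (q.mul_mem_right _ h)
  have hw₁ : ∀ i, u₁ i ∉ q := fun i h => hwa (q.mul_mem_left _
    ((hq.prod_mem_iff).mpr ⟨i, Finset.mem_univ _, h⟩))
  have hw₂ : ∀ r, u₂ r ∉ q := fun r h => hw (q.mul_mem_left _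
    ((hq.prod_mem_iff).mpr ⟨r, Finset.mem_univ _, h⟩))
  refine ⟨⟨a₀, u₀, hw₀, h₀⟩, fun i => ⟨a₁ i, u₁ i, hw₁ i, h₁ i⟩, fun t ht hty => ?_⟩
  obtain ⟨a, u, hu, ha⟩ := ht
  choose c v hv hc using hty
  set U := u * ∏ i, v i
  have hU : U ∉ q := fun h => (hq.mem_or_mem h).elim hu fun h' => by
    obtain ⟨i, -, hi⟩ := (hq.prod_mem_iff).mp h'
    exact hv i hi
  have hmem : a * ∏ i, v i ∈ J := fun i => by
    obtain ⟨e, he⟩ : v i ∣ ∏ j, v j := Finset.dvd_prod_of_mem _ (Finset.mem_univ i)
    refine ⟨c i * (u * e), ?_⟩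
    rw [map_mul, ← hc i, map_mul, he, map_mul, map_mul, ← ha]
    ring
  have hdiv : ∀ r ∈ J, InLoc q (algebraMap R F r / b) := fun r hr => by
    have := hq
    rw [← hG] at hr
    induction hr using Submodule.span_induction with
    | mem r hr => exact ⟨a₂ ⟨r, hr⟩, u₂ ⟨r, hr⟩, hw₂ _, h₂ ⟨r, hr⟩⟩
    | zero => simpa using InLoc.zero
    | add r r' _ _ h h' => rw [map_add, add_div]; exact h.add h'
    | smul s r _ h => rw [smul_eq_mul, map_mul, mul_div_assoc]; exact h.smul s
  obtain ⟨a₃, u₃, hu₃, h₃⟩ := hdiv _ hmem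
  refine ⟨a₃, U * u₃, fun h => (hq.mem_or_mem h).elim hU hu₃, ?_⟩
  rw [← h₃, map_mul, map_mul, map_mul, ← ha]
  ring

end Algebra

variable {A : Scheme.{u}} [IsIntegral A]

/-- The rational function is regular at the point. -/
def Reg (x : A) (z : A.functionField) : Prop :=
  ∃ t : A.presheaf.stalk x, algebraMap (A.presheaf.stalk x) A.functionField t = z

theorem algebraMap_stalkSpecializes {p x : A} (h : p ⤳ x) (t : A.presheaf.stalk x) :
    algebraMap (A.presheaf.stalk p) A.functionField (A.presheaf.stalkSpecializes h t) =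
      algebraMap (A.presheaf.stalk x) A.functionField t := by
  simp only [RingHom.algebraMap_toAlgebra]
  exact congrArg (fun m => m.hom t) (TopCat.Presheaf.stalkSpecializes_comp A.presheaf
    ((genericPoint_spec A).specializes trivial) h)

theorem reg_genericPoint (z : A.functionField) : Reg (genericPoint A) z := by
  refine ⟨z, ?_⟩
  simp [RingHom.algebraMap_toAlgebra, TopCat.Presheaf.stalkSpecializes_refl]

/-- `b` cuts out the common denominators at the point. -/
def IsDenAt {κ : Type*} (y : κ → A.functionField) (x : A) (b : A.functionField) : Prop :=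
  Reg x b ∧ (∀ i, Reg x (y i * b)) ∧
    ∀ t, Reg x t → (∀ i, Reg x (y i * t)) → Reg x (t / b)

variable (A) in
/-- Local equations of an effective divisor, finitely many in all. -/
structure Eqns where
  /-- The equation at a point. -/
  s : A → A.functionFieldˣ
  finite : (Set.range s).Finite
  reg : ∀ x, Reg x (s x : A.functionField)
  compat : ∀ p x : A, p ⤳ x → Reg p ((s x : A.functionField) / s p) ∧
    Reg p ((s p : A.functionField) / s x)
  generic : s (genericPoint A) = 1

variable {K : Type u} [Field K] [IsAlgClosed K] (f : A ⟶ Spec (CommRingCat.of K)) [Smooth f]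

include f in
theorem exists_nhd_isDenAt {κ : Type} [Finite κ] (y : κ → A.functionField) {x : A}
    (hx : IsClosed ({x} : Set A)) :
    ∃ W : A.Opens, x ∈ W ∧ ∃ b : A.functionField, b ≠ 0 ∧ ∀ z ∈ W, IsDenAt y z b := by
  have : IsLocallyNoetherian A := LocallyOfFiniteType.isLocallyNoetherian f
  obtain ⟨V, hV, hxV, -⟩ := exists_isAffineOpen_mem_and_subset (Opens.mem_top x)
  have : Nonempty V := ⟨⟨x, hxV⟩⟩
  have : IsNoetherianRing Γ(A, V) := IsLocallyNoetherian.component_noetherian ⟨V, hV⟩
  have := functionField_isFractionRing_of_isAffineOpen A V hV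
  have hreg : ∀ (z : A) (hz : z ∈ V) (t : A.functionField),
      InLoc (hV.primeIdealOf ⟨z, hz⟩).asIdeal t ↔ Reg z t := by
    intro z hz t
    let : Algebra Γ(A, V) (A.presheaf.stalk z) := A.presheaf.algebra_section_stalk ⟨z, hz⟩
    have : IsScalarTower Γ(A, V) (A.presheaf.stalk z) A.functionField :=
      functionField_isScalarTower A V ⟨z, hz⟩
    have : IsLocalization.AtPrime (A.presheaf.stalk z) (hV.primeIdealOf ⟨z, hz⟩).asIdeal :=
      hV.isLocalization_stalk ⟨z, hz⟩
    exact inLoc_iff_range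
  let : Algebra Γ(A, V) (A.presheaf.stalk x) := A.presheaf.algebra_section_stalk ⟨x, hxV⟩
  have : IsScalarTower Γ(A, V) (A.presheaf.stalk x) A.functionField :=
    functionField_isScalarTower A V ⟨x, hxV⟩
  have : IsLocalization.AtPrime (A.presheaf.stalk x) (hV.primeIdealOf ⟨x, hxV⟩).asIdeal :=
    hV.isLocalization_stalk ⟨x, hxV⟩
  have : UniqueFactorizationMonoid (A.presheaf.stalk x) := (stalk_facts f hx).2
  obtain ⟨w, hw, b, hb, hq⟩ :=
    exists_isDen y (hV.primeIdealOf ⟨x, hxV⟩).asIdeal (A.presheaf.stalk x)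
  have hiff : ∀ (z : A) (hz : z ∈ V),
      z ∈ A.basicOpen w ↔ w ∉ (hV.primeIdealOf ⟨z, hz⟩).asIdeal := fun z hz => by
    let : Algebra Γ(A, V) (A.presheaf.stalk z) := A.presheaf.algebra_section_stalk ⟨z, hz⟩
    have : IsLocalization.AtPrime (A.presheaf.stalk z) (hV.primeIdealOf ⟨z, hz⟩).asIdeal :=
      hV.isLocalization_stalk ⟨z, hz⟩
    rw [A.mem_basicOpen w z hz]
    exact IsLocalization.AtPrime.isUnit_to_map_iff (A.presheaf.stalk z)
      (hV.primeIdealOf ⟨z, hz⟩).asIdeal w
  refine ⟨A.basicOpen w, (hiff x hxV).mpr hw, b, hb, fun z hz => ?_⟩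
  have hzV : z ∈ V := A.basicOpen_le w hz
  obtain ⟨h1, h2, h3⟩ := hq _ (hV.primeIdealOf ⟨z, hzV⟩).isPrime ((hiff z hzV).mp hz)
  exact ⟨(hreg z hzV _).mp h1, fun i => (hreg z hzV _).mp (h2 i), fun t ht hty =>
    (hreg z hzV _).mp (h3 t ((hreg z hzV _).mpr ht) fun i => (hreg z hzV _).mpr (hty i))⟩

include f in
/-- **Local equations of the common denominators.** -/
theorem exists_eqns [CompactSpace A] {κ : Type} [Finite κ] (y : κ → A.functionField) :
    ∃ E : Eqns A, ∀ i x, Reg x (y i * E.s x) := by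
  classical
  have : JacobsonSpace A := LocallyOfFiniteType.jacobsonSpace f
  have hloc : ∀ z : A, ∃ W : A.Opens, z ∈ W ∧
      ∃ b : A.functionFieldˣ, ∀ w ∈ W, IsDenAt y w (b : A.functionField) := by
    intro z
    obtain ⟨x, hx, hxc⟩ := nonempty_inter_closedPoints (show (closure ({z} : Set A)).Nonempty from
      ⟨z, subset_closure rfl⟩) isClosed_closure.isLocallyClosed
    obtain ⟨W, hxW, b, hb, hW⟩ := exists_nhd_isDenAt f y hxc
    exact ⟨W, (specializes_iff_mem_closure.2 hx).mem_open W.isOpen hxW, Units.mk0 b hb, hW⟩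
  choose W hzW b hW using hloc
  obtain ⟨S, hS⟩ := isCompact_univ.elim_finite_subcover (fun z => (W z : Set A))
    (fun z => (W z).isOpen) fun z _ => Set.mem_iUnion.mpr ⟨z, hzW z⟩
  have hcov : ∀ x : A, ∃ c ∈ S, x ∈ W c := fun x => by simpa using hS (Set.mem_univ x)
  choose c hcS hc using hcov
  set s : A → A.functionFieldˣ := fun x => if x = genericPoint A then 1 else b (c x)
  have hs : ∀ x, IsDenAt y x (s x : A.functionField) := fun x => by
    by_cases hx : x = genericPoint A
    · subst hx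
      exact ⟨reg_genericPoint _, fun i => reg_genericPoint _, fun t _ _ => reg_genericPoint _⟩
    · simp only [s, if_neg hx]
      exact hW _ x (hc x)
  refine ⟨⟨s, ?_, fun x => (hs x).1, fun p x hpx => ?_, if_pos rfl⟩, fun i x => (hs x).2.1 i⟩
  · refine Set.Finite.subset ((S.image b) ∪ {1}).finite_toSet ?_
    rintro _ ⟨x, rfl⟩
    by_cases hx : x = genericPoint A <;> simp [s, hx]
    exact Or.inr ⟨c x, hcS x, rfl⟩
  · by_cases hx : x = genericPoint A
    · subst hx
      have : p = genericPoint A :=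
        (hpx.antisymm ((genericPoint_spec A).specializes trivial)).eq
      subst this
      exact ⟨reg_genericPoint _, reg_genericPoint _⟩
    · have hsx : (s x) = b (c x) := if_neg hx
      have hp := hs p
      have hx' : IsDenAt y p (s x : A.functionField) := by
        rw [hsx]; exact hW _ p (hpx.mem_open (W _).isOpen (hc x))
      exact ⟨hp.2.2 _ hx'.1 hx'.2.1, hx'.2.2 _ hp.1 hp.2.1⟩

end FermatAgent.AV.Div
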