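import Fermat.Agent.AV.Div.Pull
import Fermat.Agent.AV.Geo.Chart

/-!
# The symmetric divisor of an abelian variety

The common denominators of generators of a chart give an effective divisor; its sum with its
translate by negation, read at points with values in fields, gives the divisor fields of a model.
-/

set_option autoImplicit false

noncomputable section

open CategoryTheory AlgebraicGeometry IsLocalRing NeronModelInfra GoodReductionJacobian

universe u

namespace FermatAgent.AV.Div

open Geo

variable {K : Type u} [Field K] {A : Scheme.{u}} (f : A ⟶ Spec (CommRingCat.of K))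
  [IsIntegral A] [IsProper f] (E : Eqns A)
  {F G : Type u} [Field F] [Algebra K F] [Field G] [Algebra K G]

/-- The divisor of a point for the given equations. -/
def dPt (P : Pts f F) : vDiv K F := divPt f (P := P.1) P.2 E

theorem res_dPt (r : Spot K F G) (P : Pts f F) : r.res (dPt f E P) = dPt f E (mapPt r P) :=
  res_divPt f P.2 E r (mapPt r P).2 (l := (lift r P).1) (generize_lift r P) rfl

theorem dPt_kVal (r : Spot K F G) (P : Pts f F) :
    (dPt f E P).1 r.kVal = eqAt E P.1 (cpt (mapPt r P).1) :=
  divPt_kVal f P.2 E r (l := (lift r P).1) (generize_lift r P) rfl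

variable (L : RelativeGroupLaw K f)

/-- The divisor of a point and of its negative. -/
def symPt (P : Pts f F) : vDiv K F := dPt f E P * dPt f E (L.inv _ P)

/-- The symmetric class at a point. -/
def delta (P : Pts f F) : VPic K F := cls (symPt f E L P)

omit [AlgebraicGeometry.IsIntegral A] in
theorem mapPt_inv (hc : L.IsCommutative) (r : Spot K F G) (P : Pts f F) :
    mapPt r (L.inv _ P) = L.inv _ (mapPt r P) := by
  let := addCommGroup L hc F
  let := addCommGroup L hc G
  exact (map L hc r).map_neg P

/-- `δ` commutes with spots. -/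
theorem delta_map (hc : L.IsCommutative) (r : Spot K F G) (P : Pts f F) :
    r.resPic (delta f E L P) = delta f E L (mapPt r P) := by
  rw [delta, Spot.resPic_cls, delta, symPt, symPt, map_mul, res_dPt, res_dPt,
    mapPt_inv f L hc r P]

/-- `δ` is symmetric: it takes the same value at a point and at its negative. -/
theorem delta_neg (P : Pts f F) : delta f E L (L.inv _ P) = delta f E L P := by
  have h : L.inv (specK K F) (L.inv _ P) = P := by
    let := L.pointGroup (specK K F)
    exact inv_inv P
  rw [delta, delta, symPt, symPt, h, mul_comm]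

/-- `δ P` is represented by a divisor with finitely many values and, for every point `x` with
values in a field, one equation valid at all spots at which `P` specialises to `x`. -/
theorem delta_local (hc : L.IsCommutative) (P : Pts f F) :
    ∃ d : vDiv K F, cls d = delta f E L P ∧ (Set.range d.1).Finite ∧
      ∀ (H : Type u) [Field H] [Algebra K H] (x : Pts f H), ∃ b : Fˣ, ∀ r : Spot K F H,
        mapPt r P = x → b / d.1 r.kVal ∈ r.V.unitGroup := by
  refine ⟨symPt f E L P, rfl, ?_, fun H _ _ x =>
    ⟨eqAt E P.1 (cpt x.1) * eqAt E (L.inv _ P).1 (cpt (L.inv _ x).1), fun r hr => ?_⟩⟩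
  · refine (((finite_range_divPt f P.2 E).prod (finite_range_divPt f (L.inv _ P).2 E)).image
      fun v => v.1 * v.2).subset ?_
    rintro _ ⟨V, rfl⟩
    exact ⟨(_, _), ⟨⟨V, rfl⟩, ⟨V, rfl⟩⟩, rfl⟩
  · rw [symPt, Subgroup.coe_mul, Pi.mul_apply, dPt_kVal, dPt_kVal, mapPt_inv f L hc, hr, div_self']
    exact one_mem _

include L in
omit [IsProper f] in
theorem inv_genericPoint :
    (L.inv f RelativeGroupLaw.idPoint).1 (genericPoint A) = genericPoint A := by
  set ι := (L.inv f RelativeGroupLaw.idPoint).1
  have h : ι ≫ ι = 𝟙 A := by
    refine (coe_inv_eq_comp L f (L.inv f RelativeGroupLaw.idPoint)).symm.trans ?_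
    let := L.pointGroup f
    exact congrArg Subtype.val (inv_inv (RelativeGroupLaw.idPoint : SchemeHomOver f f))
  have hs : Function.Surjective ι := fun y => ⟨ι y, by
    conv_rhs => rw [← show (𝟙 A : A ⟶ A) y = y from rfl, ← h]
    rfl⟩
  refine ((genericPoint_spec A).eq ?_).symm
  have h1 := (genericPoint_spec A).image ι.continuous
  rwa [Set.image_univ, hs.range_eq, closure_univ] at h1

variable [Algebra K A.functionField] (hf : algebraMap K A.functionField = Squeeze.baseMap f)

include hf in
/-- The class at the generic point is represented by a big divisor, if elements generating the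
function field have the given equations as common denominators. -/
theorem delta_big {y : Finset A.functionField}
    (hy : IntermediateField.adjoin K (y : Set A.functionField) = ⊤)
    (hyE : ∀ a ∈ y, ∀ x, Reg x (a * E.s x)) :
    ∃ D : vDiv K A.functionField, cls D = delta f E L (gen f hf) ∧ IsBig D := by
  classical
  set Q := L.inv _ (gen f hf) with hQ
  have hη : cpt Q.1 = genericPoint A := by
    rw [cpt, hQ, coe_inv_eq_comp L]
    show (L.inv f RelativeGroupLaw.idPoint).1 (A.fromSpecStalk (genericPoint A)
      (closedPoint A.functionField)) = _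
    rw [Scheme.fromSpecStalk_closedPoint]
    exact inv_genericPoint f L
  have hη₀ : cpt (gen f hf).1 = genericPoint A := A.fromSpecStalk_closedPoint
  refine ⟨symPt f E L (gen f hf), rfl, fun V => ?_, ?_, y, hy, fun a ha V => ?_⟩
  · rw [symPt, Subgroup.coe_mul, Pi.mul_apply, Units.val_mul]
    exact V.1.mul_mem _ _ (divPt_mem f (gen f hf).2 E hη₀ V) (divPt_mem f Q.2 E hη V)
  · have hfin : (Set.range (symPt f E L (gen f hf)).1).Finite := by
      refine (((finite_range_divPt f (gen f hf).2 E).prod (finite_range_divPt f Q.2 E)).image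
        fun v => v.1 * v.2).subset ?_
      rintro _ ⟨V, rfl⟩
      exact ⟨(_, _), ⟨⟨V, rfl⟩, ⟨V, rfl⟩⟩, rfl⟩
    exact ⟨hfin.toFinset.image (·⁻¹), fun V => ⟨((symPt f E L (gen f hf)).1 V)⁻¹,
      Finset.mem_image.mpr ⟨_, hfin.mem_toFinset.mpr ⟨V, rfl⟩, rfl⟩,
      by rw [inv_mul_cancel]; exact one_mem _⟩⟩
  · rw [symPt, Subgroup.coe_mul, Pi.mul_apply, Units.val_mul, ← mul_assoc]
    exact V.1.mul_mem _ _ (mul_divPt_mem E (gen f hf).2 (hyE a ha) V) (divPt_mem f Q.2 E hη V)

include hf in
/-- Equations making a divisor big at the generic point. -/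
theorem exists_big_eqns [IsAlgClosed K] [Smooth f] :
    ∃ (E : Eqns A) (y : Finset A.functionField),
      IntermediateField.adjoin K (y : Set A.functionField) = ⊤ ∧
        ∀ a ∈ y, ∀ x, Reg x (a * E.s x) := by
  classical
  have : CompactSpace A := QuasiCompact.compactSpace_of_compactSpace f
  obtain ⟨V, hV, hxV, -⟩ :=
    exists_isAffineOpen_mem_and_subset (TopologicalSpace.Opens.mem_top (genericPoint A))
  obtain ⟨y, hy⟩ := chartRing_fg f hf ⟨V, hV, hxV⟩
  obtain ⟨E, hE⟩ := exists_eqns f (κ := Fin y.card) fun i => (y.equivFin.symm i : A.functionField)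
  refine ⟨E, y, ?_, fun a ha x => by simpa using hE (y.equivFin ⟨a, ha⟩) x⟩
  rw [eq_top_iff, ← chartRing_frac f hf ⟨V, hV, hxV⟩, IntermediateField.adjoin_le_iff, ← hy]
  exact IntermediateField.algebra_adjoin_le_adjoin _ _

/-- A choice of such equations. -/
def bigEqns [IsAlgClosed K] [Smooth f] : Eqns A := (exists_big_eqns f hf).choose

/-- For the chosen equations the class at the generic point is represented by a big divisor. -/
theorem delta_big_bigEqns [IsAlgClosed K] [Smooth f] :
    ∃ D : vDiv K A.functionField,
      cls D = delta f (bigEqns f hf) L (gen f hf) ∧ IsBig D := by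
  obtain ⟨y, hy, hyE⟩ := (exists_big_eqns f hf).choose_spec
  exact delta_big f (bigEqns f hf) L hf hy hyE

end FermatAgent.AV.Div
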