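import Fermat.Agent.AV.Defs
import Fermat.Agent.AV.Div.Equation
import Fermat.Agent.AV.Squeeze.Centre

/-!
# The divisor of a point

A point of a proper scheme with values in a field has a centre along every valuation subring; the
local equations there, read at the point, form a divisor on the field, functorial for spots.
-/

set_option autoImplicit false

noncomputable section

open CategoryTheory AlgebraicGeometry IsLocalRing

universe u

namespace FermatAgent.AV.Div

variable {A : Scheme.{u}}

/-- The image of the closed point. -/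
def cpt {R : Type u} [CommRing R] [IsLocalRing R] (l : Spec (CommRingCat.of R) ⟶ A) : A :=
  l (closedPoint (CommRingCat.of R))

/-- Evaluation at the image of the closed point. -/
def evalAt {R : Type u} [CommRing R] [IsLocalRing R] (l : Spec (CommRingCat.of R) ⟶ A) :
    A.presheaf.stalk (cpt l) →+* R :=
  (Scheme.stalkClosedPointTo l).hom

theorem spec_evalAt {R : Type u} [CommRing R] [IsLocalRing R]
    (l : Spec (CommRingCat.of R) ⟶ A) :
    Spec.map (CommRingCat.ofHom (evalAt l)) ≫ A.fromSpecStalk (cpt l) = l :=
  Scheme.Spec_stalkClosedPointTo_fromSpecStalk l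

section Comp

variable {R S : Type u} [CommRing R] [IsLocalRing R] [CommRing S] [IsLocalRing S] (ψ : R →+* S)
  {l : Spec (CommRingCat.of R) ⟶ A} {m : Spec (CommRingCat.of S) ⟶ A}
  (hm : Spec.map (CommRingCat.ofHom ψ) ≫ l = m)

include hm in
theorem cpt_specializes : cpt m ⤳ cpt l := by
  subst hm
  exact (specializes_closedPoint _).map l.continuous

include hm in
theorem evalAt_stalkSpecializes (h : cpt m ⤳ cpt l) (t : A.presheaf.stalk (cpt l)) :
    evalAt m (A.presheaf.stalkSpecializes h t) = ψ (evalAt l t) := by
  have e : A.presheaf.stalkSpecializes h ≫ CommRingCat.ofHom (evalAt m) =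
      CommRingCat.ofHom (evalAt l) ≫ CommRingCat.ofHom ψ := by
    apply Spec.map_injective
    rw [← cancel_mono (A.fromSpecStalk (cpt l)), Spec.map_comp, Spec.map_comp, Category.assoc,
      Category.assoc, Scheme.SpecMap_stalkSpecializes_fromSpecStalk]
    exact ((spec_evalAt m).trans hm.symm).trans
      (congrArg (Spec.map (CommRingCat.ofHom ψ) ≫ ·) (spec_evalAt l)).symm
  exact congrArg (fun g => g.hom t) e

include hm in
theorem cpt_eq_of_isLocalHom [IsLocalHom ψ] : cpt m = cpt l := by
  subst hm
  show l (Spec.map (CommRingCat.ofHom ψ) (closedPoint (CommRingCat.of S))) = _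
  congr 1
  have : IsLocalHom (CommRingCat.ofHom ψ).hom := ‹IsLocalHom ψ›
  exact Spec_closedPoint

end Comp

section Ratio

variable [IsIntegral A] (E : Eqns A)

theorem algebraMap_stalk_injective (p : A) :
    Function.Injective (algebraMap (A.presheaf.stalk p) A.functionField) :=
  IsFractionRing.injective _ _

open scoped Classical in
/-- The quotient of two equations as a unit at the more general point. -/
def ratio (p x : A) : (A.presheaf.stalk p)ˣ :=
  if h : p ⤳ x then
    ⟨(E.compat p x h).1.choose, (E.compat p x h).2.choose,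
      algebraMap_stalk_injective p (by
        rw [map_mul, (E.compat p x h).1.choose_spec, (E.compat p x h).2.choose_spec, map_one]
        field_simp),
      algebraMap_stalk_injective p (by
        rw [map_mul, (E.compat p x h).1.choose_spec, (E.compat p x h).2.choose_spec, map_one]
        field_simp)⟩
  else 1

theorem algebraMap_ratio {p x : A} (h : p ⤳ x) :
    algebraMap (A.presheaf.stalk p) A.functionField (ratio E p x) =
      (E.s x : A.functionField) / E.s p := by
  rw [ratio, dif_pos h]
  exact (E.compat p x h).1.choose_spec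

theorem ratio_self (p : A) : ratio E p p = 1 :=
  Units.ext (algebraMap_stalk_injective p (by
    rw [algebraMap_ratio E specializes_rfl, Units.val_one, map_one, div_self (Units.ne_zero _)]))

theorem ratio_trans {p q x : A} (hpq : p ⤳ q) (hqx : q ⤳ x) :
    ratio E p x = ratio E p q *
      Units.map (A.presheaf.stalkSpecializes hpq).hom.toMonoidHom (ratio E q x) :=
  Units.ext (algebraMap_stalk_injective p (by
    rw [algebraMap_ratio E (hpq.trans hqx), Units.val_mul, map_mul, algebraMap_ratio E hpq]
    simp only [Units.coe_map, RingHom.toMonoidHom_eq_coe, MonoidHom.coe_coe]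
    rw [algebraMap_stalkSpecializes hpq, algebraMap_ratio E hqx]
    field_simp))

/-- The equation of a point read at the closed point of a morphism. -/
def eqAt {R : Type u} [CommRing R] [IsLocalRing R] (l : Spec (CommRingCat.of R) ⟶ A) (x : A) : Rˣ :=
  Units.map (evalAt l).toMonoidHom (ratio E (cpt l) x)

theorem eqAt_self {R : Type u} [CommRing R] [IsLocalRing R]
    (l : Spec (CommRingCat.of R) ⟶ A) : eqAt E l (cpt l) = 1 := by
  rw [eqAt, ratio_self, map_one]

theorem eqAt_comp {R S : Type u} [CommRing R] [IsLocalRing R] [CommRing S] [IsLocalRing S]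
    (ψ : R →+* S) {l : Spec (CommRingCat.of R) ⟶ A} {m : Spec (CommRingCat.of S) ⟶ A}
    (hm : Spec.map (CommRingCat.ofHom ψ) ≫ l = m) {x : A} (hx : cpt l ⤳ x) :
    eqAt E m x = eqAt E m (cpt l) * Units.map ψ.toMonoidHom (eqAt E l x) := by
  rw [eqAt, ratio_trans E (cpt_specializes ψ hm) hx, map_mul]
  refine congrArg (_ * ·) (Units.ext ?_)
  exact evalAt_stalkSpecializes ψ hm _ _

theorem finite_range_eqAt {R : Type u} [CommRing R] [IsLocalRing R]
    (l : Spec (CommRingCat.of R) ⟶ A) : (Set.range (eqAt E l)).Finite := by
  classical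
  have h1 : {u : (A.presheaf.stalk (cpt l))ˣ |
      algebraMap (A.presheaf.stalk (cpt l)) A.functionField u ∈
        (fun c : A.functionFieldˣ => (c : A.functionField) / E.s (cpt l)) '' Set.range E.s
          ∪ {1}}.Finite :=
    ((E.finite.image _).union (Set.finite_singleton 1)).preimage
      (Function.Injective.injOn ((algebraMap_stalk_injective _).comp Units.val_injective))
  refine (h1.image (Units.map (evalAt l).toMonoidHom)).subset ?_
  rintro _ ⟨x, rfl⟩
  refine ⟨ratio E (cpt l) x, ?_, rfl⟩
  by_cases h : cpt l ⤳ x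
  · exact Or.inl ⟨_, ⟨x, rfl⟩, (algebraMap_ratio E h).symm⟩
  · refine Or.inr ?_
    simp [ratio, h]

end Ratio

variable {K : Type u} [Field K] (f : A ⟶ Spec (CommRingCat.of K)) {F : Type u} [Field F]
  [Algebra K F] (P : Spec (CommRingCat.of F) ⟶ A)

/-- An extension of the point to the valuation subring. -/
def IsLift (V : ValuationSubring F) (l : Spec (CommRingCat.of V) ⟶ A) : Prop :=
  Spec.map (CommRingCat.ofHom (V.subtype : V →+* F)) ≫ l = P

omit [Algebra K F] in
theorem isLift_unique [IsSeparated f] {V : ValuationSubring F}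
    {l l' : Spec (CommRingCat.of V) ⟶ A} (hl : IsLift P V l) (hl' : IsLift P V l') : l = l' :=
  Squeeze.extension_unique (f := f) hl hl'

variable {P} (hP : P ≫ f = Spec.map (CommRingCat.ofHom (algebraMap K F)))

include hP in
theorem exists_lift [UniversallyClosed f] (V : KVal K F) : ∃ l, IsLift P V.1 l :=
  Squeeze.exists_extension hP V.1 V.2

variable [IsProper f] [IsIntegral A] (E : Eqns A)

/-- The centre of the point along a valuation subring. -/
def centre (V : KVal K F) : A := cpt (exists_lift f hP V).choose

omit [AlgebraicGeometry.IsIntegral A] in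
theorem centre_eq {V : KVal K F} {l : Spec (CommRingCat.of V.1) ⟶ A} (hl : IsLift P V.1 l) :
    centre f hP V = cpt l :=
  congrArg cpt (isLift_unique f P (exists_lift f hP V).choose_spec hl)

theorem mem_unitGroup_map (V : ValuationSubring F) (u : Vˣ) :
    Units.map (V.subtype : V →+* F).toMonoidHom u ∈ V.unitGroup :=
  (V.valuation_eq_one_iff u.1).mp u.isUnit

/-- The divisor of a point. -/
def divPt : vDiv K F :=
  ⟨fun V => eqAt E P (centre f hP V), fun V V' hV => by
    obtain ⟨l, hl⟩ := exists_lift f hP V
    set ι : V.1 →+* V'.1 := ValuationSubring.inclusion V.1 V'.1 hV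
    set l' := Spec.map (CommRingCat.ofHom ι) ≫ l
    have hl' : IsLift P V'.1 l' := by
      rw [IsLift, ← Category.assoc, ← Spec.map_comp]
      exact hl
    show eqAt E P (centre f hP V) / eqAt E P (centre f hP V') ∈ V'.1.unitGroup
    rw [centre_eq f hP hl, centre_eq f hP hl', eqAt_comp E _ hl' (cpt_specializes ι rfl),
      mul_div_cancel_left]
    exact mem_unitGroup_map _ _⟩

theorem coe_divPt (V : KVal K F) : (divPt f hP E).1 V = eqAt E P (centre f hP V) := rfl

theorem finite_range_divPt : (Set.range (divPt f hP E).1).Finite :=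
  (finite_range_eqAt E P).subset (Set.range_subset_iff.mpr fun _ => ⟨_, rfl⟩)

variable {G : Type u} [Field G] [Algebra K G] {P' : Spec (CommRingCat.of G) ⟶ A}

theorem isLocalHom_red (r : Spot K F G) : IsLocalHom r.ρ :=
  ⟨fun x hx => by_contra fun h => hx.ne_zero ((r.ker_iff x).mpr h)⟩

/-- At a spot the divisor is the equation at the reduced point. -/
theorem divPt_kVal (r : Spot K F G) {l : Spec (CommRingCat.of r.V) ⟶ A} (hl : IsLift P r.V l)
    (hl' : Spec.map (CommRingCat.ofHom r.ρ) ≫ l = P') :
    (divPt f hP E).1 r.kVal = eqAt E P (cpt P') := by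
  have := isLocalHom_red r
  rw [coe_divPt, cpt_eq_of_isLocalHom r.ρ hl']
  exact congrArg _ (centre_eq f hP (V := r.kVal) hl)

/-- **Functoriality for spots.** -/
theorem res_divPt (r : Spot K F G) (hP' : P' ≫ f = Spec.map (CommRingCat.ofHom (algebraMap K G)))
    {l : Spec (CommRingCat.of r.V) ⟶ A} (hl : IsLift P r.V l)
    (hl' : Spec.map (CommRingCat.ofHom r.ρ) ≫ l = P') :
    r.res (divPt f hP E) = divPt f hP' E := by
  have := isLocalHom_red r
  refine Subtype.ext (funext fun W => ?_)
  rw [Spot.coe_res_apply, coe_divPt]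
  obtain ⟨l₂, hl₂⟩ := exists_lift f hP (r.pull W)
  set ι : (r.pull W).1 →+* r.V := ValuationSubring.inclusion _ _ (r.pull_le W)
  have hl₂' : Spec.map (CommRingCat.ofHom ι) ≫ l₂ = l := by
    refine isLift_unique f P ?_ hl
    rw [IsLift, ← Category.assoc, ← Spec.map_comp]
    exact hl₂
  have hW : IsLift P' W.1 (Spec.map (CommRingCat.ofHom (r.pullRed W)) ≫ l₂) := by
    rw [IsLift, ← hl', ← hl₂', ← Category.assoc, ← Category.assoc, ← Spec.map_comp,
      ← Spec.map_comp]
    rfl
  have : IsLocalHom (r.pullRed W) := ⟨fun _ h => r.isUnit_of_pullRed W h⟩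
  rw [centre_eq f hP' hW, cpt_eq_of_isLocalHom (r.pullRed W) rfl,
    eqAt_comp E r.ρ hl' (cpt_specializes ι hl₂'), ← cpt_eq_of_isLocalHom r.ρ hl',
    eqAt_self, one_mul]
  set u := eqAt E l (cpt l₂)
  have hd : (divPt f hP E).1 (r.pull W) / (divPt f hP E).1 r.kVal =
      Units.map (r.V.subtype : r.V →+* F).toMonoidHom u := by
    rw [coe_divPt, coe_divPt, centre_eq f hP hl₂, centre_eq f hP (V := r.kVal) hl]
    exact (congrArg (· / _) (eqAt_comp E _ hl (cpt_specializes ι hl₂'))).trans
      (mul_div_cancel_left _ _)
  refine Units.ext ?_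
  have hmem : ((((divPt f hP E).1 (r.pull W) / (divPt f hP E).1 r.kVal : Fˣ)) : F) ∈ r.V := by
    rw [hd]; exact SetLike.coe_mem _
  rw [Spot.resFun, r.coe_unitRed _ hmem]
  exact congrArg r.ρ (Subtype.ext (congrArg Units.val hd))

/-- At a point over the generic point the divisor is effective. -/
theorem divPt_mem (hη : cpt P = genericPoint A) (V : KVal K F) :
    ((divPt f hP E).1 V : F) ∈ V.1 := by
  obtain ⟨l, hl⟩ := exists_lift f hP V
  obtain ⟨t, ht⟩ := E.reg (cpt l)
  have h : cpt P ⤳ cpt l := cpt_specializes _ hl
  have e : (ratio E (cpt P) (cpt l) : A.presheaf.stalk (cpt P)) =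
      A.presheaf.stalkSpecializes h t :=
    algebraMap_stalk_injective _ (by
      rw [algebraMap_ratio E h, algebraMap_stalkSpecializes, ht, show E.s (cpt P) = 1 by
        rw [hη]; exact E.generic, Units.val_one, div_one])
  rw [coe_divPt, centre_eq f hP hl]
  show evalAt P (ratio E (cpt P) (cpt l) : A.presheaf.stalk (cpt P)) ∈ V.1
  rw [e, evalAt_stalkSpecializes _ hl]
  exact SetLike.coe_mem _

section Generic

variable {f}

/-- The generic point as a point with values in the function field. -/
abbrev genPt : Spec (CommRingCat.of A.functionField) ⟶ A := A.fromSpecStalk (genericPoint A)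

theorem cpt_generic : cpt (genPt (A := A)) =
    genericPoint A :=
  A.fromSpecStalk_closedPoint

theorem evalAt_generic (t : A.presheaf.stalk (cpt (genPt (A := A)))) :
    evalAt (genPt (A := A)) t =
      algebraMap _ A.functionField t := by
  have e : CommRingCat.ofHom (evalAt (genPt (A := A))) =
      A.presheaf.stalkSpecializes ((genericPoint_spec A).specializes trivial) := by
    apply Spec.map_injective
    rw [← cancel_mono (A.fromSpecStalk _), spec_evalAt,
      Scheme.SpecMap_stalkSpecializes_fromSpecStalk]
  exact congrArg (fun g => g.hom t) e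

/-- The bounded rational functions lie in the space of the divisor of the generic point. -/
theorem mul_divPt_mem [Algebra K A.functionField]
    (hgen : A.fromSpecStalk (genericPoint A) ≫ f =
      Spec.map (CommRingCat.ofHom (algebraMap K A.functionField)))
    {z : A.functionField} (hz : ∀ x, Reg x (z * E.s x)) (V : KVal K A.functionField) :
    z * ((divPt (F := A.functionField) f hgen E).1 V : A.functionField) ∈ V.1 := by
  obtain ⟨l, hl⟩ := exists_lift (F := A.functionField) f hgen V
  obtain ⟨t, ht⟩ := hz (cpt l)
  have h := cpt_specializes _ hl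
  rw [coe_divPt, centre_eq (F := A.functionField) f hgen hl]
  show z * evalAt (genPt (A := A)) (ratio E _ (cpt l)).1 ∈ V.1
  rw [evalAt_generic, algebraMap_ratio E h, cpt_generic, E.generic, Units.val_one, div_one, ← ht,
    ← algebraMap_stalkSpecializes h t, ← evalAt_generic, evalAt_stalkSpecializes _ hl]
  exact SetLike.coe_mem _

end Generic

end FermatAgent.AV.Div
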